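import Mathlib.RingTheory.Depth.Rees
import Mathlib.RingTheory.Regular.Free
import Mathlib.RingTheory.Ideal.AssociatedPrime.Finiteness
import Mathlib.RingTheory.Ideal.Quotient.Noetherian

set_option autoImplicit false

namespace Fermat.Agent.S57

open IsLocalRing RingTheory.Sequence CategoryTheory Abelian

/-- Nakayama: for a nontrivial finite module over a local ring, `𝔪 N < N`. -/
lemma maximalIdeal_smul_top_lt_top (B : Type) [CommRing B] [IsLocalRing B]
    (N : Type) [AddCommGroup N] [Module B N] [Module.Finite B N] [Nontrivial N] :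
    maximalIdeal B • (⊤ : Submodule B N) < ⊤ := by
  refine lt_of_le_of_ne le_top ?_
  intro h
  have hfg : (⊤ : Submodule B N).FG := Module.finite_def.mp inferInstance
  have := Submodule.eq_bot_of_le_smul_of_le_jacobson_bot (maximalIdeal B) ⊤ hfg
    (le_of_eq h.symm) (IsLocalRing.maximalIdeal_le_jacobson _)
  exact top_ne_bot this

/-- Existence of a regular element in `𝔪 \ 𝔪²`. -/
lemma exists_regular_not_mem_sq (B : Type) [CommRing B] [IsLocalRing B] [IsNoetherianRing B]
    (N : Type) [AddCommGroup N] [Module B N] [Module.Finite B N] [Nontrivial N]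
    (y : B) (hy : y ∈ maximalIdeal B) (hreg : IsSMulRegular N y) :
    ∃ x ∈ maximalIdeal B, x ∉ maximalIdeal B ^ 2 ∧ IsSMulRegular N x := by
  classical
  by_contra hcon
  push Not at hcon
  let S : Finset (Ideal B) := insert (maximalIdeal B ^ 2) (associatedPrimes.finite B N).toFinset
  have hsub : ((maximalIdeal B : Ideal B) : Set B) ⊆ ⋃ i ∈ (S : Set (Ideal B)), ((id i : Ideal B) : Set B) := by
    intro x hx
    by_cases hx2 : x ∈ maximalIdeal B ^ 2
    · refine Set.mem_biUnion (x := maximalIdeal B ^ 2) ?_ hx2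
      simp [S]
    · have hnr : ¬ IsSMulRegular N x := hcon x hx hx2
      have : x ∈ ({r | IsSMulRegular N r}ᶜ : Set B) := hnr
      rw [← biUnion_associatedPrimes_eq_compl_regular B N] at this
      obtain ⟨p, hp, hxp⟩ := Set.mem_iUnion₂.mp this
      refine Set.mem_biUnion (x := p) ?_ hxp
      simp [S, hp]
  have hprime : ∀ i ∈ S, i ≠ maximalIdeal B ^ 2 → i ≠ maximalIdeal B ^ 2 → (id i : Ideal B).IsPrime := by
    intro i hi h1 _
    simp only [S, Finset.mem_insert, Set.Finite.mem_toFinset] at hi
    rcases hi with hi | hi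
    · exact absurd hi h1
    · exact hi.isPrime
  obtain ⟨i, hi, hle⟩ := (Ideal.subset_union_prime (maximalIdeal B ^ 2) (maximalIdeal B ^ 2) hprime).mp hsub
  simp only [S, Finset.mem_insert, Set.Finite.mem_toFinset] at hi
  rcases hi with hi | hi
  · -- 𝔪 ≤ 𝔪², so 𝔪 = ⊥
    subst hi
    have hfg : (maximalIdeal B).FG := IsNoetherian.noetherian _
    have hbot : maximalIdeal B = ⊥ := by
      apply Submodule.eq_bot_of_le_smul_of_le_jacobson_bot (maximalIdeal B) (maximalIdeal B) hfg
      · simpa [pow_two] using hle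
      · exact IsLocalRing.maximalIdeal_le_jacobson _
    have hy0 : y = 0 := by simpa [hbot] using hy
    subst hy0
    exact (not_subsingleton N) ((IsSMulRegular.zero_iff_subsingleton).mp hreg)
  · have : y ∈ ({r | IsSMulRegular N r}ᶜ : Set B) := by
      rw [← biUnion_associatedPrimes_eq_compl_regular B N]
      exact Set.mem_biUnion hi (hle hy)
    exact this hreg


/-- If `𝔪` is generated by a finset `s` and `x ∈ 𝔪 \ 𝔪²`, one generator can be traded for `x`. -/
lemma exists_erase_span_insert (B : Type) [CommRing B] [IsLocalRing B]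
    (s : Finset B) (hs : Ideal.span (s : Set B) = maximalIdeal B)
    (x : B) (hx : x ∈ maximalIdeal B) (hx2 : x ∉ maximalIdeal B ^ 2) :
    ∃ s' : Finset B, s'.card + 1 ≤ s.card ∧
      Ideal.span (insert x (s' : Set B)) = maximalIdeal B := by
  classical
  have hxs : x ∈ Ideal.span (s : Set B) := hs ▸ hx
  obtain ⟨a, -, ha⟩ := Submodule.mem_span_finset.mp hxs
  have hex : ∃ z ∈ s, a z ∉ maximalIdeal B := by
    by_contra hcon
    push Not at hcon
    apply hx2
    rw [← ha]
    refine Ideal.sum_mem _ fun z hz => ?_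
    rw [pow_two, smul_eq_mul]
    exact Ideal.mul_mem_mul (hcon z hz) (hs ▸ Ideal.subset_span hz)
  obtain ⟨z, hz, haz⟩ := hex
  refine ⟨s.erase z, by rw [Finset.card_erase_add_one hz], ?_⟩
  have hunit : IsUnit (a z) := by
    by_contra h
    exact haz ((IsLocalRing.mem_maximalIdeal _).mpr h)
  obtain ⟨u, hu⟩ := hunit
  set T : Ideal B := Ideal.span (insert x ((s.erase z : Finset B) : Set B)) with hT
  have hxT : x ∈ T := Ideal.subset_span (Set.mem_insert _ _)
  have hsT : ∀ w ∈ s.erase z, w ∈ T := fun w hw =>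
    Ideal.subset_span (Set.mem_insert_of_mem _ hw)
  have hzT : z ∈ T := by
    have hsum : x = a z * z + ∑ w ∈ s.erase z, a w * w := by
      rw [← ha, ← Finset.add_sum_erase s _ hz]
      simp [smul_eq_mul]
    have hz' : z = (↑u⁻¹ : B) * (x - ∑ w ∈ s.erase z, a w * w) := by
      rw [hsum, add_sub_cancel_right, ← hu, ← mul_assoc, Units.inv_mul, one_mul]
    rw [hz']
    refine T.mul_mem_left _ (T.sub_mem hxT (T.sum_mem fun w hw => T.mul_mem_left _ (hsT w hw)))
  apply le_antisymm
  · rw [hT, Ideal.span_le]
    intro w hw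
    rcases hw with rfl | hw
    · exact hx
    · exact hs ▸ Ideal.subset_span (Finset.mem_of_mem_erase hw)
  · rw [← hs, Ideal.span_le]
    intro w hw
    by_cases hwz : w = z
    · exact hwz ▸ hzT
    · exact hsT w (Finset.mem_erase.mpr ⟨hwz, hw⟩)


/-- Depth drops by exactly one (here: at most one) modulo a regular element, via Rees. -/
lemma exists_isRegular_quotSMulTop (B : Type) [CommRing B] [IsLocalRing B] [IsNoetherianRing B]
    (N : Type) [AddCommGroup N] [Module B N] [Module.Finite B N]
    (n : ℕ) (rs : List B) (hlen : rs.length = n + 1) (hmem : ∀ r ∈ rs, r ∈ maximalIdeal B)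
    (hreg : IsRegular N rs) (x : B) (hx : x ∈ maximalIdeal B) (hxreg : IsSMulRegular N x) :
    ∃ rs' : List B, rs'.length = n ∧ (∀ r ∈ rs', r ∈ maximalIdeal B) ∧
      IsRegular (QuotSMulTop x N) rs' := by
  have : Nontrivial N := hreg.nontrivial
  have : Nontrivial (QuotSMulTop x N) := nontrivial_quotSMulTop_of_mem_maximalIdeal N hx
  have h1 := (ModuleCat.exists_isRegular_tfae (maximalIdeal B) (n + 1) (ModuleCat.of B N)
    (maximalIdeal_smul_top_lt_top B N)).out 3 1
  have hext : ∀ i < n + 1, Subsingleton
      (Ext (ModuleCat.of B (Shrink.{0} (B ⧸ maximalIdeal B))) (ModuleCat.of B N) i) :=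
    h1.mp ⟨rs, hlen, hmem, hreg⟩
  have h2 := (ModuleCat.exists_isRegular_tfae (maximalIdeal B) n
    (ModuleCat.of B (QuotSMulTop x N)) (maximalIdeal_smul_top_lt_top B _)).out 1 3
  apply h2.mp
  intro i hi
  have hS : ((ModuleCat.of B N).smulShortComplex x).ShortExact :=
    IsSMulRegular.smulShortComplex_shortExact (M := ModuleCat.of B N) hxreg
  have zero1 := AddCommGrpCat.isZero_of_iff_subsingleton.mpr (hext i (by omega))
  have zero2 := AddCommGrpCat.isZero_of_iff_subsingleton.mpr (hext (i + 1) (by omega))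
  exact AddCommGrpCat.subsingleton_of_isZero <| ShortComplex.Exact.isZero_of_both_zeros
    ((Ext.covariant_sequence_exact₃' (ModuleCat.of B (Shrink.{0} (B ⧸ maximalIdeal B))) hS)
      i (i + 1) rfl)
    (zero1.eq_zero_of_src _) (zero2.eq_zero_of_tgt _)


/-- A finite module over a Noetherian local ring whose maximal ideal is generated by at most `n`
elements, admitting a regular sequence of length `n` inside the maximal ideal, is free. -/
theorem free_of_isRegular_of_span (n : ℕ) :
    ∀ (B : Type) [CommRing B] [IsLocalRing B] [IsNoetherianRing B]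
      (N : Type) [AddCommGroup N] [Module B N] [Module.Finite B N]
      (s : Finset B), s.card ≤ n → Ideal.span (s : Set B) = maximalIdeal B →
      ∀ (rs : List B), rs.length = n → (∀ x ∈ rs, x ∈ maximalIdeal B) → IsRegular N rs →
      Module.Free B N := by
  induction n with
  | zero =>
    intro B _ _ _ N _ _ _ s hs hspan rs _ _ _
    have hs0 : s = ∅ := Finset.card_eq_zero.mp (Nat.le_zero.mp hs)
    have hbot : maximalIdeal B = ⊥ := by rw [← hspan, hs0]; simp
    have hfield : IsField B := IsLocalRing.isField_iff_maximalIdeal_eq.mpr hbot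
    let _ := hfield.toField
    exact Module.Free.of_divisionRing B N
  | succ n ih =>
    intro B _ _ _ N _ _ _ s hs hspan rs hlen hmem hreg
    have : Nontrivial N := hreg.nontrivial
    obtain ⟨y, rs', rfl⟩ : ∃ y rs', rs = y :: rs' := by
      cases rs with
      | nil => simp at hlen
      | cons y rs' => exact ⟨y, rs', rfl⟩
    have hyreg : IsSMulRegular N y := ((isRegular_cons_iff N y rs').mp hreg).1
    have hy : y ∈ maximalIdeal B := hmem y (List.mem_cons_self)
    obtain ⟨x, hx, hx2, hxreg⟩ := exists_regular_not_mem_sq B N y hy hyreg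
    obtain ⟨rs'', hlen'', hmem'', hreg''⟩ :=
      exists_isRegular_quotSMulTop B N n _ hlen hmem hreg x hx hxreg
    obtain ⟨s', hs'card, hs'span⟩ := exists_erase_span_insert B s hspan x hx hx2
    have hne : Ideal.span {x} ≠ ⊤ := by
      intro h
      have : (1 : B) ∈ maximalIdeal B :=
        (Ideal.span_le.mpr (Set.singleton_subset_iff.mpr hx)) (h ▸ Submodule.mem_top)
      exact (Ideal.ne_top_iff_one _).mp (maximalIdeal.isMaximal B).ne_top this
    have : Nontrivial (B ⧸ Ideal.span {x}) := Ideal.Quotient.nontrivial_iff.mpr hne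
    have : IsLocalRing (B ⧸ Ideal.span {x}) :=
      IsLocalRing.of_surjective' (Ideal.Quotient.mk _) Ideal.Quotient.mk_surjective
    have : Module.Finite (B ⧸ Ideal.span {x}) (QuotSMulTop x N) :=
      Module.Finite.of_restrictScalars_finite B (B ⧸ Ideal.span {x}) _
    have hreg3 : IsRegular (QuotSMulTop x N) (rs''.map (Ideal.Quotient.mk (Ideal.span {x}))) :=
      ((isRegular_cons_iff' N x rs'').mp ((isRegular_cons_iff N x rs'').mpr ⟨hxreg, hreg''⟩)).2
    have hmax : (maximalIdeal B).map (Ideal.Quotient.mk (Ideal.span {x})) =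
        maximalIdeal (B ⧸ Ideal.span {x}) :=
      IsLocalRing.map_maximalIdeal_of_surjective _ Ideal.Quotient.mk_surjective
    classical
    have hfree : Module.Free (B ⧸ Ideal.span {x}) (QuotSMulTop x N) := by
      refine ih (B ⧸ Ideal.span {x}) (QuotSMulTop x N)
        (s'.image (Ideal.Quotient.mk (Ideal.span {x}))) ?_ ?_ _ ?_ ?_ hreg3
      · exact (Finset.card_image_le).trans (by omega)
      · rw [← hmax, ← hs'span, Ideal.map_span, Finset.coe_image, Set.image_insert_eq]
        have h0 : (Ideal.Quotient.mk (Ideal.span {x})) x = 0 :=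
          Ideal.Quotient.eq_zero_iff_mem.mpr (Ideal.mem_span_singleton_self x)
        rw [h0, Ideal.span_insert_zero]
      · simp [hlen'']
      · intro z hz
        obtain ⟨w, hw, rfl⟩ := List.mem_map.mp hz
        rw [← hmax]
        exact Ideal.mem_map_of_mem _ (hmem'' w hw)
    have : Module.FinitePresentation B N := Module.finitePresentation_of_finite B N
    refine (Module.free_quotSMulTop_iff_free B N ?_ hxreg).mp hfree
    rw [IsLocalRing.jacobson_eq_maximalIdeal ⊥ bot_ne_top]
    exact hx

end Fermat.Agent.S57
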