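import Mathlib.RingTheory.MvPowerSeries.Inverse
import Mathlib.RingTheory.MvPowerSeries.Equiv
import Mathlib.RingTheory.DiscreteValuationRing.Basic
import Mathlib.RingTheory.Regular.RegularSequence

set_option autoImplicit false

namespace Fermat.Agent.S57

open MvPowerSeries

variable {𝒪 : Type} [CommRing 𝒪] {r : ℕ}

/-- Power series all of whose monomials involve one of the first `i` variables. -/
noncomputable def vanishIdeal (𝒪 : Type) [CommRing 𝒪] (r i : ℕ) : Ideal (MvPowerSeries (Fin r) 𝒪) where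
  carrier := {f | ∀ m : Fin r →₀ ℕ, (∀ j : Fin r, j.val < i → m j = 0) → coeff m f = 0}
  add_mem' := by
    intro f g hf hg m hm
    simp [hf m hm, hg m hm]
  zero_mem' := by
    intro m _
    simp
  smul_mem' := by
    classical
    intro g f hf m hm
    rw [smul_eq_mul, coeff_mul]
    apply Finset.sum_eq_zero
    rintro ⟨a, b⟩ hab
    rw [Finset.mem_antidiagonal] at hab
    have hb : ∀ j : Fin r, j.val < i → b j = 0 := by
      intro j hj
      have h := hm j hj
      rw [← hab] at h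
      simp only [Finsupp.coe_add, Pi.add_apply, Nat.add_eq_zero_iff] at h
      exact h.2
    simp only
    rw [hf b hb, mul_zero]

lemma mem_vanishIdeal_iff (i : ℕ) (f : MvPowerSeries (Fin r) 𝒪) :
    f ∈ vanishIdeal 𝒪 r i ↔
      ∀ m : Fin r →₀ ℕ, (∀ j : Fin r, j.val < i → m j = 0) → coeff m f = 0 :=
  Iff.rfl

/-- The ideal generated by the first `i` variables. -/
noncomputable def spanXlt (𝒪 : Type) [CommRing 𝒪] (r i : ℕ) : Ideal (MvPowerSeries (Fin r) 𝒪) :=
  Ideal.span ((fun j : Fin r => (X j : MvPowerSeries (Fin r) 𝒪)) '' {j | j.val < i})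

lemma spanXlt_le_vanishIdeal (i : ℕ) : spanXlt 𝒪 r i ≤ vanishIdeal 𝒪 r i := by
  rw [spanXlt, Ideal.span_le]
  rintro _ ⟨j, hj, rfl⟩
  intro m hm
  exact X_dvd_iff.mp dvd_rfl m (hm j hj)

lemma spanXlt_mono {i i' : ℕ} (h : i ≤ i') : spanXlt 𝒪 r i ≤ spanXlt 𝒪 r i' := by
  apply Ideal.span_mono
  apply Set.image_mono
  intro j hj
  exact lt_of_lt_of_le hj h

lemma vanishIdeal_le_spanXlt (i : ℕ) : vanishIdeal 𝒪 r i ≤ spanXlt 𝒪 r i := by
  induction i with
  | zero =>
    intro f hf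
    have : f = 0 := by
      ext m
      rw [coeff_zero]
      exact hf m (fun j hj => absurd hj (Nat.not_lt_zero _))
    rw [this]
    exact Ideal.zero_mem _
  | succ i ih =>
    intro f hf
    by_cases hir : i < r
    · let h : MvPowerSeries (Fin r) 𝒪 := fun m => if m ⟨i, hir⟩ = 0 then coeff m f else 0
      have hcoeff : ∀ m, coeff m h = if m ⟨i, hir⟩ = 0 then coeff m f else 0 := fun m => rfl
      have hh : h ∈ vanishIdeal 𝒪 r i := by
        intro m hm
        rw [hcoeff]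
        split_ifs with hmi
        · apply hf m
          intro j hj
          rcases Nat.lt_succ_iff_lt_or_eq.mp hj with hj' | hj'
          · exact hm j hj'
          · have : j = ⟨i, hir⟩ := Fin.ext hj'
            rw [this]; exact hmi
        · rfl
      have hdvd : (X ⟨i, hir⟩ : MvPowerSeries (Fin r) 𝒪) ∣ f - h := by
        rw [X_dvd_iff]
        intro m hm
        rw [map_sub, hcoeff, if_pos hm, sub_self]
      obtain ⟨g, hg⟩ := hdvd
      have hfh : f = X ⟨i, hir⟩ * g + h := by rw [← hg]; ring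
      rw [hfh]
      refine Ideal.add_mem _ (Ideal.mul_mem_right _ _ ?_) (spanXlt_mono (Nat.le_succ i) (ih hh))
      exact Ideal.subset_span ⟨⟨i, hir⟩, Nat.lt_succ_self i, rfl⟩
    · refine spanXlt_mono (Nat.le_succ i) (ih ?_)
      intro m hm
      apply hf m
      intro j _
      exact hm j (lt_of_lt_of_le j.isLt (not_lt.mp hir))

lemma spanXlt_eq_vanishIdeal (i : ℕ) : spanXlt 𝒪 r i = vanishIdeal 𝒪 r i :=
  le_antisymm (spanXlt_le_vanishIdeal i) (vanishIdeal_le_spanXlt i)


/-- `X i` is a non-zero-divisor modulo the first `i` variables. -/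
lemma mem_vanishIdeal_of_X_mul_mem (i : ℕ) (hir : i < r) (c : MvPowerSeries (Fin r) 𝒪)
    (h : X ⟨i, hir⟩ * c ∈ vanishIdeal 𝒪 r i) : c ∈ vanishIdeal 𝒪 r i := by
  classical
  intro m hm
  have h1 := h (Finsupp.single ⟨i, hir⟩ 1 + m) (by
    intro j hj
    have hne : (⟨i, hir⟩ : Fin r) ≠ j := by
      intro hEq
      rw [← hEq] at hj
      exact lt_irrefl _ hj
    simp [Finsupp.single_eq_of_ne' hne, hm j hj])
  rw [X_def, coeff_add_monomial_mul, one_mul] at h1
  exact h1

/-- A non-zero-divisor constant is a non-zero-divisor modulo all the variables. -/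
lemma mem_vanishIdeal_of_C_mul_mem (a : 𝒪) (ha : ∀ x : 𝒪, a * x = 0 → x = 0)
    (c : MvPowerSeries (Fin r) 𝒪)
    (h : C a * c ∈ vanishIdeal 𝒪 r r) : c ∈ vanishIdeal 𝒪 r r := by
  intro m hm
  have hm0 : m = 0 := by
    ext j
    exact hm j j.isLt
  subst hm0
  have h1 := h 0 (fun j _ => rfl)
  rw [coeff_C_mul] at h1
  exact ha _ h1

lemma mem_vanishIdeal_top_iff (f : MvPowerSeries (Fin r) 𝒪) :
    f ∈ vanishIdeal 𝒪 r r ↔ constantCoeff f = 0 := by
  constructor
  · intro h
    rw [← coeff_zero_eq_constantCoeff_apply]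
    exact h 0 (fun j _ => rfl)
  · intro h m hm
    have hm0 : m = 0 := by
      ext j
      exact hm j j.isLt
    subst hm0
    rw [coeff_zero_eq_constantCoeff_apply]
    exact h

lemma spanXlt_top_eq : spanXlt 𝒪 r r =
    Ideal.span (Set.range fun j : Fin r => (X j : MvPowerSeries (Fin r) 𝒪)) := by
  rw [spanXlt]
  congr 1
  ext x
  constructor
  · rintro ⟨j, -, rfl⟩
    exact ⟨j, rfl⟩
  · rintro ⟨j, rfl⟩
    exact ⟨j, j.isLt, rfl⟩

/-- The maximal ideal of a power series ring over a local ring with principal maximal ideal. -/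
lemma maximalIdeal_mvPowerSeries_eq [IsLocalRing 𝒪] (ϖ : 𝒪)
    (hϖ : IsLocalRing.maximalIdeal 𝒪 = Ideal.span {ϖ}) :
    IsLocalRing.maximalIdeal (MvPowerSeries (Fin r) 𝒪) =
      Ideal.span (insert (C ϖ)
        (Set.range fun j : Fin r => (X j : MvPowerSeries (Fin r) 𝒪))) := by
  apply le_antisymm
  · intro f hf
    have hf' : constantCoeff f ∈ IsLocalRing.maximalIdeal 𝒪 := by
      rw [IsLocalRing.mem_maximalIdeal, mem_nonunits_iff] at hf ⊢
      rwa [← isUnit_iff_constantCoeff]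
    rw [hϖ, Ideal.mem_span_singleton'] at hf'
    obtain ⟨a, ha⟩ := hf'
    have hsub : f - C a * C ϖ ∈ vanishIdeal 𝒪 r r := by
      rw [mem_vanishIdeal_top_iff, map_sub, map_mul, constantCoeff_C, constantCoeff_C, ha, sub_self]
    rw [← spanXlt_eq_vanishIdeal, spanXlt_top_eq] at hsub
    have hf2 : f = C a * C ϖ + (f - C a * C ϖ) := by ring
    rw [hf2]
    refine Ideal.add_mem _ (Ideal.mul_mem_left _ _ (Ideal.subset_span (Set.mem_insert _ _))) ?_
    exact (Ideal.span_mono (Set.subset_insert _ _)) hsub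
  · rw [Ideal.span_le]
    intro f hf
    rw [SetLike.mem_coe, IsLocalRing.mem_maximalIdeal, mem_nonunits_iff, isUnit_iff_constantCoeff]
    rcases hf with rfl | ⟨j, rfl⟩
    · rw [constantCoeff_C]
      have : ϖ ∈ IsLocalRing.maximalIdeal 𝒪 := hϖ ▸ Ideal.mem_span_singleton_self ϖ
      exact (IsLocalRing.mem_maximalIdeal _).mp this
    · rw [constantCoeff_X]
      exact not_isUnit_zero


/-- The list `[X 0, …, X (r-1), C ϖ]`. -/
noncomputable def regList (𝒪 : Type) [CommRing 𝒪] (r : ℕ) (ϖ : 𝒪) :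
    List (MvPowerSeries (Fin r) 𝒪) :=
  List.ofFn (fun j : Fin r => (X j : MvPowerSeries (Fin r) 𝒪)) ++ [C ϖ]

lemma regList_length (ϖ : 𝒪) : (regList 𝒪 r ϖ).length = r + 1 := by
  simp [regList]

lemma ofList_take_regList (ϖ : 𝒪) (i : ℕ) (hi : i ≤ r) :
    Ideal.ofList ((regList 𝒪 r ϖ).take i) = spanXlt 𝒪 r i := by
  unfold regList
  rw [List.take_append_of_le_length (by simpa using hi), Ideal.ofList, spanXlt]
  congr 1
  ext x
  simp only [Set.mem_ofPred_eq, List.mem_take_iff_getElem, List.getElem_ofFn, Set.mem_image,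
    List.length_ofFn]
  constructor
  · rintro ⟨k, hk, rfl⟩
    have hk' : k < i ∧ k < r := by simpa using hk
    exact ⟨⟨k, hk'.2⟩, hk'.1, rfl⟩
  · rintro ⟨j, hj, rfl⟩
    exact ⟨j.val, lt_min hj j.isLt, rfl⟩

lemma regList_getElem_lt (ϖ : 𝒪) (i : ℕ) (hi : i < r) (hi' : i < (regList 𝒪 r ϖ).length) :
    (regList 𝒪 r ϖ)[i] = X ⟨i, hi⟩ := by
  simp only [regList]
  rw [List.getElem_append_left (by simpa using hi), List.getElem_ofFn]

lemma regList_getElem_last (ϖ : 𝒪) (hi' : r < (regList 𝒪 r ϖ).length) :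
    (regList 𝒪 r ϖ)[r] = C ϖ := by
  simp only [regList]
  rw [List.getElem_append_right (by simp)]
  simp

lemma regList_regular (ϖ : 𝒪) (hϖ : ∀ x : 𝒪, ϖ * x = 0 → x = 0) (i : ℕ)
    (hi : i < (regList 𝒪 r ϖ).length) (c : MvPowerSeries (Fin r) 𝒪)
    (h : (regList 𝒪 r ϖ)[i] * c ∈ Ideal.ofList ((regList 𝒪 r ϖ).take i)) :
    c ∈ Ideal.ofList ((regList 𝒪 r ϖ).take i) := by
  have hi2 : i < r + 1 := by rwa [regList_length] at hi
  have hi3 : i ≤ r := Nat.lt_succ_iff.mp hi2
  rw [ofList_take_regList ϖ i hi3, spanXlt_eq_vanishIdeal] at h ⊢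
  rcases Nat.lt_or_ge i r with hlt | hge
  · rw [regList_getElem_lt ϖ i hlt] at h
    exact mem_vanishIdeal_of_X_mul_mem i hlt c h
  · have hir : i = r := le_antisymm hi3 hge
    subst hir
    rw [regList_getElem_last ϖ] at h
    exact mem_vanishIdeal_of_C_mul_mem ϖ hϖ c h

end Fermat.Agent.S57
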