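import Mathlib.RingTheory.Regular.RegularSequence
import Mathlib.RingTheory.Ideal.Maps

set_option autoImplicit false

namespace Fermat.Agent.S57

open RingTheory.Sequence

section Transfer

variable {A B : Type} [CommRing A] [CommRing B] (φ : A →+* B)
  {N : Type} [AddCommGroup N] [Module B N] {d : ℕ} (b : Fin d → N)

/-- Elements of `φ(I) N` have coordinates in `I`. -/
lemma exists_coord_of_mem_map_smul_top
    (hspan : ∀ x : N, ∃ c : Fin d → A, x = ∑ i, φ (c i) • b i)
    (I : Ideal A) (x : N) (hx : x ∈ (I.map φ) • (⊤ : Submodule B N)) :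
    ∃ c : Fin d → A, (∀ i, c i ∈ I) ∧ x = ∑ i, φ (c i) • b i := by
  refine Submodule.smul_induction_on hx ?_ ?_
  · intro t ht n _
    have key : ∀ n : N, ∃ c : Fin d → A, (∀ i, c i ∈ I) ∧ t • n = ∑ i, φ (c i) • b i := by
      refine Submodule.span_induction (p := fun t _ => ∀ n : N, ∃ c : Fin d → A,
        (∀ i, c i ∈ I) ∧ t • n = ∑ i, φ (c i) • b i) ?_ ?_ ?_ ?_ ht
      · rintro _ ⟨a, ha, rfl⟩ n
        obtain ⟨c, hc⟩ := hspan n
        refine ⟨fun i => a * c i, fun i => I.mul_mem_right _ ha, ?_⟩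
        rw [hc, Finset.smul_sum]
        refine Finset.sum_congr rfl fun i _ => ?_
        rw [map_mul, mul_smul]
      · intro n
        exact ⟨fun _ => 0, fun _ => I.zero_mem, by simp⟩
      · intro t₁ t₂ _ _ h₁ h₂ n
        obtain ⟨c₁, hc₁, e₁⟩ := h₁ n
        obtain ⟨c₂, hc₂, e₂⟩ := h₂ n
        refine ⟨fun i => c₁ i + c₂ i, fun i => I.add_mem (hc₁ i) (hc₂ i), ?_⟩
        rw [add_smul, e₁, e₂, ← Finset.sum_add_distrib]
        refine Finset.sum_congr rfl fun i _ => ?_
        rw [map_add, add_smul]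
      · intro β t _ h n
        obtain ⟨c, hc, e⟩ := h (β • n)
        refine ⟨c, hc, ?_⟩
        rw [← e, smul_eq_mul, mul_comm, mul_smul]
    exact key n
  · rintro x y ⟨c₁, hc₁, e₁⟩ ⟨c₂, hc₂, e₂⟩
    refine ⟨fun i => c₁ i + c₂ i, fun i => I.add_mem (hc₁ i) (hc₂ i), ?_⟩
    rw [e₁, e₂, ← Finset.sum_add_distrib]
    refine Finset.sum_congr rfl fun i _ => ?_
    rw [map_add, add_smul]

lemma mem_map_smul_top_of_coord (I : Ideal A) (c : Fin d → A) (hc : ∀ i, c i ∈ I) :
    ∑ i, φ (c i) • b i ∈ (I.map φ) • (⊤ : Submodule B N) :=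
  Submodule.sum_mem _ fun i _ =>
    Submodule.smul_mem_smul (Ideal.mem_map_of_mem φ (hc i)) Submodule.mem_top

/-- Regularity modulo an ideal transfers along a "free" structure. -/
lemma isSMulRegular_quot_map_smul_top
    (hspan : ∀ x : N, ∃ c : Fin d → A, x = ∑ i, φ (c i) • b i)
    (hrel : ∀ c : Fin d → A, ∑ i, φ (c i) • b i = 0 → ∀ i, c i = 0)
    (I : Ideal A) (a : A) (ha : ∀ c : A, a * c ∈ I → c ∈ I) :
    IsSMulRegular (N ⧸ ((I.map φ) • (⊤ : Submodule B N))) (φ a) := by
  rw [isSMulRegular_quotient_iff_mem_of_smul_mem]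
  intro x hx
  obtain ⟨c, hc⟩ := hspan x
  obtain ⟨e, he, hxe⟩ := exists_coord_of_mem_map_smul_top φ b hspan I _ hx
  have hzero : ∑ i, φ (a * c i - e i) • b i = 0 := by
    have h1 : φ a • x = ∑ i, φ (a * c i) • b i := by
      rw [hc, Finset.smul_sum]
      refine Finset.sum_congr rfl fun i _ => ?_
      rw [map_mul, mul_smul]
    have h2 : ∑ i, φ (a * c i - e i) • b i = ∑ i, φ (a * c i) • b i - ∑ i, φ (e i) • b i := by
      rw [← Finset.sum_sub_distrib]
      refine Finset.sum_congr rfl fun i _ => ?_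
      rw [map_sub, sub_smul]
    rw [h2, ← h1, hxe, sub_self]
  have hce : ∀ i, c i ∈ I := by
    intro i
    apply ha
    have := hrel _ hzero i
    rw [sub_eq_zero] at this
    rw [this]
    exact he i
  rw [hc]
  exact mem_map_smul_top_of_coord φ b I c hce

/-- A sequence regular on `A` maps to a weakly regular sequence on `N`. -/
lemma isWeaklyRegular_map_of_free
    (hspan : ∀ x : N, ∃ c : Fin d → A, x = ∑ i, φ (c i) • b i)
    (hrel : ∀ c : Fin d → A, ∑ i, φ (c i) • b i = 0 → ∀ i, c i = 0)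
    (as : List A)
    (h : ∀ (i : ℕ) (hi : i < as.length) (c : A),
      as[i] * c ∈ Ideal.ofList (as.take i) → c ∈ Ideal.ofList (as.take i)) :
    IsWeaklyRegular N (as.map φ) := by
  refine ⟨fun i hi => ?_⟩
  have hi' : i < as.length := by simpa using hi
  have e1 : Ideal.ofList ((as.map φ).take i) = (Ideal.ofList (as.take i)).map φ := by
    rw [Ideal.map_ofList, List.map_take]
  have e2 : (as.map φ)[i] = φ as[i] := List.getElem_map φ
  rw [e1, e2]
  exact isSMulRegular_quot_map_smul_top φ b hspan hrel _ _ (h i hi')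

end Transfer

end Fermat.Agent.S57
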