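import Fermat.Prelude.Def_Algebra_PatchingDatum
import Fermat.Agent.S57.MCMFree
import Fermat.Agent.S57.PowerSeriesIdeal
import Fermat.Agent.S57.Transfer

set_option autoImplicit false
set_option linter.unusedSectionVars false

namespace Fermat.Agent.S57

open IsLocalRing RingTheory.Sequence MvPowerSeries

section

variable {𝒪 : Type} [CommRing 𝒪] [IsDomain 𝒪] [IsDiscreteValuationRing 𝒪]
    {r : ℕ} {R : Type} [CommRing R] [Algebra 𝒪 R]
    {M : Type} [AddCommGroup M] [Module R M] [Nontrivial M]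
    (L : Algebra.PatchingLevel 𝒪 r R M ⊥)

include L in
lemma level_nontrivial_R : Nontrivial R := by
  by_contra h
  rw [not_nontrivial_iff_subsingleton] at h
  have : Subsingleton M := Module.subsingleton R M
  exact not_subsingleton M this

lemma level_ker_le_maximalIdeal :
    RingHom.ker L.ψ ≤ maximalIdeal (MvPowerSeries (Fin r) 𝒪) := by
  have := level_nontrivial_R L
  apply IsLocalRing.le_maximalIdeal
  exact RingHom.ker_ne_top _

lemma level_finite : Module.Finite (MvPowerSeries (Fin r) 𝒪) L.N := by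
  classical
  refine ⟨⟨Finset.univ.image L.b, ?_⟩⟩
  rw [eq_top_iff]
  intro x _
  obtain ⟨c, hc⟩ := L.b_span x
  rw [hc]
  refine Submodule.sum_mem _ fun i _ => Submodule.smul_mem _ _ (Submodule.subset_span ?_)
  simp

lemma level_nontrivial_N : Nontrivial L.N :=
  L.π_surjective.nontrivial

/-- The patched module is free over the power series ring. -/
theorem level_free : Module.Free (MvPowerSeries (Fin r) 𝒪) L.N := by
  classical
  obtain ⟨ϖ, hϖ⟩ := IsDiscreteValuationRing.exists_irreducible 𝒪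
  have hmax := hϖ.maximalIdeal_eq
  have hspan : ∀ x : L.N, ∃ c : Fin L.d → MvPowerSeries (Fin r) 𝒪,
      x = ∑ i, (L.φ : MvPowerSeries (Fin r) 𝒪 →+* MvPowerSeries (Fin r) 𝒪) (c i) • L.b i :=
    fun x => L.b_span x
  have hrel : ∀ c : Fin L.d → MvPowerSeries (Fin r) 𝒪,
      ∑ i, (L.φ : MvPowerSeries (Fin r) 𝒪 →+* MvPowerSeries (Fin r) 𝒪) (c i) • L.b i = 0 →
      ∀ i, c i = 0 := by
    intro c hc i
    have := (L.b_rel c).mp hc i
    simpa using this
  have := level_finite L
  have := level_nontrivial_N L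
  have hϖ0 : ∀ x : 𝒪, ϖ * x = 0 → x = 0 := by
    intro x hx
    rcases mul_eq_zero.mp hx with h | h
    · exact absurd h hϖ.ne_zero
    · exact h
  have hweak : IsWeaklyRegular L.N ((regList 𝒪 r ϖ).map
      (L.φ : MvPowerSeries (Fin r) 𝒪 →+* MvPowerSeries (Fin r) 𝒪)) :=
    isWeaklyRegular_map_of_free _ L.b hspan hrel _ (regList_regular ϖ hϖ0)
  have hgen := maximalIdeal_mvPowerSeries_eq (r := r) ϖ hmax
  have hmem : ∀ x ∈ (regList 𝒪 r ϖ).map
      (L.φ : MvPowerSeries (Fin r) 𝒪 →+* MvPowerSeries (Fin r) 𝒪),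
      x ∈ maximalIdeal (MvPowerSeries (Fin r) 𝒪) := by
    intro x hx
    obtain ⟨y, hy, rfl⟩ := List.mem_map.mp hx
    simp only [regList, List.mem_append, List.mem_ofFn, List.mem_singleton] at hy
    rcases hy with ⟨j, rfl⟩ | rfl
    · apply level_ker_le_maximalIdeal L
      rw [RingHom.mem_ker]
      exact L.ψ_φ_X j
    · have : (L.φ : MvPowerSeries (Fin r) 𝒪 →+* MvPowerSeries (Fin r) 𝒪) (C ϖ) = C ϖ := by
        rw [c_eq_algebraMap]
        exact L.φ.commutes ϖ
      rw [this, hgen]
      exact Ideal.subset_span (Set.mem_insert _ _)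
  have hreg : IsRegular L.N ((regList 𝒪 r ϖ).map
      (L.φ : MvPowerSeries (Fin r) 𝒪 →+* MvPowerSeries (Fin r) 𝒪)) :=
    IsRegular.of_isWeaklyRegular_of_mem_maximalIdeal _ hmem hweak
  refine free_of_isRegular_of_span (r + 1) (MvPowerSeries (Fin r) 𝒪) L.N
    (insert (C ϖ) (Finset.univ.image fun j : Fin r => (X j : MvPowerSeries (Fin r) 𝒪)))
    ?_ ?_ _ ?_ hmem hreg
  · refine (Finset.card_insert_le _ _).trans ?_
    have := Finset.card_image_le (s := (Finset.univ : Finset (Fin r)))
      (f := fun j : Fin r => (X j : MvPowerSeries (Fin r) 𝒪))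
    simp only [Finset.card_univ, Fintype.card_fin] at this
    omega
  · rw [hgen]
    congr 1
    simp
  · simp [regList_length]

end

end Fermat.Agent.S57
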